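import Fermat.Agent.S24.Basic

/-!
# S24, component B (analytic): common definitions (owner: lead).  Complete, no `sorry`.
Do not edit without asking lead.
-/

set_option autoImplicit false

noncomputable section

namespace Fermat.Agent.S24

open AlgebraicCurve ModularCurve IntermediateField UpperHalfPlane
open scoped MatrixGroups Manifold

theorem isAlgebraic_Qb : Algebra.IsAlgebraic ℚ (AlgebraicClosure ℚ) :=
  AlgebraicClosure.isAlgebraic ℚ

/-- The fixed embedding `ℚ̄ → ℂ` as a `ℚ`-algebra hom. -/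
def φAlg : Qb →ₐ[ℚ] ℂ :=
  haveI := isAlgebraic_Qb
  IsAlgClosed.lift

/-- The fixed embedding `ℚ̄ → ℂ`. -/
def φ : Qb →+* ℂ := (φAlg : Qb →+* ℂ)

/-- Klein's `j`-function on the upper half plane, `j = E₄³/Δ` (so `j = 1/q + 744 + …`). -/
def Jfun (z : ℍ) : ℂ := ModularForm.E₄ z ^ 3 / ModularForm.discriminant z

theorem jd_mem (N d : ℕ) [NeZero d] (hd : d ∣ N) :
    coeffEmb Qb (qExpand ℚ d jq) ∈ ModularCurve.modularFunctionFieldBar N :=
  coeffEmb_mem_laurentBaseChange Qb (jqd_mem_full N hd)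

/-- The generator `j(q^d)` (`d ∣ N`) of the function field. -/
def jd (N d : ℕ) [NeZero d] (hd : d ∣ N) : FN N := ⟨coeffEmb Qb (qExpand ℚ d jq), jd_mem N d hd⟩

/-- The coordinate ring `ℚ̄[j(q^d) : d ∣ N] ⊆ F`. -/
def coordRing (N : ℕ) : Subalgebra Qb (FN N) :=
  Algebra.adjoin Qb {x | ∃ (d : ℕ) (_ : NeZero d) (hd : d ∣ N), x = jd N d hd}

/-- `q = e^{2πiz}`. -/
def qOf (z : ℍ) : ℂ := Complex.exp (2 * Real.pi * Complex.I * (z : ℂ))

/-- `t = e^{2πiz/N}`. -/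
def tOf (N : ℕ) (z : ℍ) : ℂ := Complex.exp (2 * Real.pi * Complex.I * (z : ℂ) / N)

/-- Evaluate a Laurent series over `ℚ̄` at `q = e^{2πiz}` (junk value if it does not converge). -/
def evFun (a : LaurentSeries Qb) (z : ℍ) : ℂ := ∑' n : ℤ, φ (a.coeff n) * qOf z ^ n

/-- The `g`-conjugate of the function attached to an element `a` of the coordinate ring:
`z ↦ ev(a)(g⁻¹ z)`. -/
def conjFun (N : ℕ) (g : SL(2, ℤ)) (a : coordRing N) (z : ℍ) : ℂ :=
  evFun ((a : FN N) : LaurentSeries Qb) (g⁻¹ • z)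

/-- `f : ℍ → ℂ` has the (convergent) Laurent expansion `G` in the variable `t = e^{2πiz/N}`. -/
def HasTExp (N : ℕ) (f : ℍ → ℂ) (G : LaurentSeries ℂ) : Prop :=
  ∀ z : ℍ, HasSum (fun n : ℤ => G.coeff n * tOf N z ^ n) (f z)

/-- `ρ = e^{2πi/3}`, the fixed point of `S * T`. -/
def rho : ℍ := ⟨-1 / 2 + (Real.sqrt 3 / 2 : ℝ) * Complex.I, by
  simp⟩

end Fermat.Agent.S24
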