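import Fermat.Agent.S24.Ana.Defs
import Fermat.Agent.S24.Ana.Conv.Taylor
import Fermat.Agent.S24.Ana.Conv.Limit
import Fermat.Agent.S24.Ana.Conv.Eta
import Fermat.Agent.S24.Ana.J.Basic
import Fermat.Agent.S24.Ana.J.Holo
import Fermat.Agent.S24.Ana.J.LevelOne
import Fermat.Agent.S24.Ana.J.Surj
import Fermat.Agent.S24.Ana.J.QExp
import Fermat.Agent.S24.Ana.J.HasSum
import Fermat.Agent.S24.Ana.J.DerivBound
import Fermat.Agent.S24.Ana.J.Deriv
import Fermat.Agent.S24.Ana.J.Order

/-!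
# S24, component B: analytic facts about Klein's `j`-function.  INTERFACE (statements frozen).
-/

set_option autoImplicit false

noncomputable section

namespace Fermat.Agent.S24

open AlgebraicCurve ModularCurve IntermediateField UpperHalfPlane
open scoped MatrixGroups Manifold

/-- `j` is holomorphic on `ℍ`. -/
theorem Jfun_mdiff : MDifferentiable 𝓘(ℂ) 𝓘(ℂ) Jfun :=
  Jfun_mdiff_impl

/-- `j` is `SL₂(ℤ)`-invariant. -/
theorem Jfun_smul (g : SL(2, ℤ)) (z : ℍ) : Jfun (g • z) = Jfun z :=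
  Jfun_smul_impl g z

/-- `q`-expansion: the Prelude's formal `jq` converges on `ℍ` to `j`. -/
theorem Jfun_hasSum (z : ℍ) :
    HasSum (fun n : ℤ => ((jq.coeff n : ℚ) : ℂ) * qOf z ^ n) (Jfun z) :=
  Jfun_hasSum_impl z

/-- `j : ℍ → ℂ` is surjective. -/
theorem Jfun_surjective : Function.Surjective Jfun :=
  Jfun_surjective_impl

theorem S_smul_I : ModularGroup.S • UpperHalfPlane.I = UpperHalfPlane.I :=
  S_smul_I_impl

theorem ST_smul_rho : (ModularGroup.S * ModularGroup.T) • rho = rho :=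
  ST_smul_rho_impl

theorem Jfun_I : Jfun UpperHalfPlane.I = 1728 :=
  Jfun_I_impl

theorem Jfun_rho : Jfun rho = 0 :=
  Jfun_rho_impl

/-- The order of vanishing of `j - j(z₀)` at `z₀` is `3`, `2` or `1` according to whether
`j(z₀) = 0`, `j(z₀) = 1728`, or neither. -/
theorem Jfun_order (z₀ : ℍ) :
    analyticOrderAt (fun w : ℂ => Jfun (UpperHalfPlane.ofComplex w) - Jfun z₀) (z₀ : ℂ) =
      if Jfun z₀ = 0 then 3 else if Jfun z₀ = 1728 then 2 else 1 :=
  Jfun_order_impl z₀

end Fermat.Agent.S24
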