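import Fermat.Agent.S24.Ana.Base
import Fermat.Agent.S24.Ana.Degree.Transc
import Fermat.Agent.S24.Ana.Degree.CharPoly
import Fermat.Agent.S24.Ana.Degree.Upper
import Fermat.Agent.S24.Ana.Degree.CuspExp
import Fermat.Agent.S24.Ana.Degree.Lower

/-!
# S24, component B: the degree `[F : ℚ̄(j)] = [SL₂(ℤ) : Γ₀(N)]`.  INTERFACE (statements frozen).
-/

set_option autoImplicit false

noncomputable section

namespace Fermat.Agent.S24

open AlgebraicCurve ModularCurve IntermediateField
open scoped MatrixGroups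

/-- `j` is transcendental over `ℚ̄`. -/
theorem jBar_transcendental (N : ℕ) [NeZero N] : Transcendental Qb (jBar N) :=
  jBar_transcendental_aux N

/-- The (finite) set of generators of the coordinate ring. -/
theorem finite_generators (N : ℕ) [NeZero N] :
    {x : FN N | ∃ (d : ℕ) (_ : NeZero d) (hd : d ∣ N), x = jd N d hd}.Finite := by
  classical
  have hfin : (Set.range fun d : {d : ℕ // d ∈ N.divisors} =>
      haveI : NeZero d.1 := ⟨(Nat.pos_of_mem_divisors d.2).ne'⟩
      jd N d.1 (Nat.dvd_of_mem_divisors d.2)).Finite := Set.finite_range _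
  refine hfin.subset ?_
  rintro x ⟨d, hd0, hd, rfl⟩
  exact ⟨⟨d, Nat.mem_divisors.mpr ⟨hd, NeZero.ne N⟩⟩, rfl⟩

theorem upper_bound_FN (N : ℕ) [NeZero N] :
    FiniteDimensional Qb⟮jBar N⟯ (FN N) ∧ Module.finrank Qb⟮jBar N⟯ (FN N) ≤ cosetCard N := by
  refine finrank_le_of_charpoly (K := Qb) (F := FN N) (jBar N) (coordRing N)
    (jBar_mem_coordRing N) _ (finite_generators N) rfl (exists_div_coordRing N) (cosetCard N) ?_
  intro a
  obtain ⟨p, hmonic, hdeg, hp⟩ := exists_charpoly N a
  refine ⟨p, hmonic, hdeg, ?_⟩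
  have h := congrArg (fun y : coordRing N => (y : FN N)) hp
  simp only [ZeroMemClass.coe_zero] at h
  rw [← h]
  have h2 := Polynomial.hom_eval₂ p
    ((Polynomial.aeval (jCoord N)).toRingHom : Polynomial Qb →+* coordRing N)
    ((coordRing N).val : coordRing N →+* FN N) a
  have h3 : (((coordRing N).val : coordRing N →+* FN N).comp
      ((Polynomial.aeval (jCoord N)).toRingHom : Polynomial Qb →+* coordRing N))
      = ((Polynomial.aeval (jBar N)).toRingHom : Polynomial Qb →+* FN N) := by
    refine Polynomial.ringHom_ext (fun c => ?_) ?_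
    · simp
    · simp [jCoord]
  rw [h3] at h2
  exact h2.symm

/-- The function field is finite over `ℚ̄(j)`. -/
theorem finiteDimensional_FN (N : ℕ) [NeZero N] : FiniteDimensional Qb⟮jBar N⟯ (FN N) :=
  (upper_bound_FN N).1

/-- `[F : ℚ̄(j)] = [SL₂(ℤ) : Γ₀(N)]`. -/
theorem finrank_FN (N : ℕ) [NeZero N] :
    Module.finrank Qb⟮jBar N⟯ (FN N) = cosetCard N := by
  refine le_antisymm (upper_bound_FN N).2 ?_
  refine card_le_finrank_of_distinct_homs (K := Qb) (F := FN N) (jBar N) (finiteDimensional_FN N)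
    (fun i : Cosets N => cuspExp N (Quotient.out i)) ?_ ?_ ?_
  · intro i i' h
    have := cuspExp_distinct N _ _ h
    simpa using this
  · intro i i'
    rw [cuspExp_jBar, cuspExp_jBar]
  · intro i i' c
    rw [cuspExp_algebraMap, cuspExp_algebraMap]

end Fermat.Agent.S24
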