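import Fermat.Agent.S24.Alg
import Fermat.Agent.S24.Ana.Degree
import Fermat.Agent.S24.Ana.Cusp.Group
import Fermat.Agent.S24.Ana.Cusp.Ord
import Fermat.Agent.S24.Ana.Cusp.Orbit

/-!
# S24, component B: places over `j = ∞` (cusps).  INTERFACE (statement frozen).
-/

set_option autoImplicit false

noncomputable section

namespace Fermat.Agent.S24

open AlgebraicCurve ModularCurve IntermediateField
open scoped MatrixGroups

theorem mk_mul_out (N : ℕ) (ε : SL(2, ℤ)) (i : Cosets N) :
    (QuotientGroup.mk (ε * Quotient.out i) : Cosets N) = ε • i := by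
  have h : ε • (QuotientGroup.mk (Quotient.out i) : Cosets N) = ε • i := by
    rw [QuotientGroup.out_eq']
  exact h

/-- A representative of `ε • i` is `ε * (representative of i) * γ` with `γ ∈ Γ₀(N)`. -/
theorem cuspExp_out_smul (N : ℕ) [NeZero N] (ε : SL(2, ℤ)) (i : Cosets N) :
    cuspExp N (Quotient.out (ε • i)) = cuspExp N (ε * Quotient.out i) := by
  obtain ⟨γ, hγ⟩ := QuotientGroup.mk_out_eq_mul (CongruenceSubgroup.Gamma0 N) (ε * Quotient.out i)
  rw [← mk_mul_out]
  have h2 : Quotient.out (QuotientGroup.mk (ε * Quotient.out i) : Cosets N)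
      = ε * Quotient.out i * (γ : SL(2, ℤ)) := hγ
  rw [h2, cuspExp_mul_right N _ _ γ.2]

/-- Places over `j = ∞` (the cusps) correspond to orbits of `⟨T⟩` on the cosets. -/
theorem card_places_infty (N : ℕ) [NeZero N] :
    Nat.card {v : Place Qb (FN N) // v.ord (jBar N) < 0} = orbCard N ModularGroup.T := by
  classical
  have key := card_places_eq_card_blocks (K := Qb) (F := FN N) (jBar N) (jBar_transcendental N)
    (finiteDimensional_FN N) (jBar N)⁻¹ (Or.inr rfl) (L := LaurentSeries ℂ)
    (HahnSeries.order : LaurentSeries ℂ → ℤ) isOrdFn_order (I := Cosets N)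
    (fun i : Cosets N => cuspExp N (Quotient.out i))
    (by
      intro i i' h
      have := cuspExp_distinct N _ _ h
      simpa using this)
    (finrank_FN N).symm
    (by intro i i'; rw [cuspExp_jBar, cuspExp_jBar])
    (by intro i i' c; rw [cuspExp_algebraMap, cuspExp_algebraMap])
    N (Nat.pos_of_ne_zero (NeZero.ne N))
    (fun i => order_cuspExp_jBar_inv N _)
    (fun i c hc => order_cuspExp_algebraMap N _ c hc)
    (MulAction.orbitRel (Subgroup.zpowers ModularGroup.T) (Cosets N))
    (by
      intro i i' hr f
      obtain ⟨k, rfl⟩ := exists_zpow_smul_of_orbitRel ModularGroup.T i i' hr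
      show (cuspExp N (Quotient.out (ModularGroup.T ^ k • i')) f).order = _
      rw [cuspExp_out_smul, order_cuspExp_T_zpow_mul])
    (by
      intro i f hf
      have hfix := pow_card_orbitRel_smul ModularGroup.T i
      refine dvd_order_of_T_zpow_fix N (Quotient.out i) _ ?_ f hf
      rw [zpow_natCast, mk_mul_out]
      exact hfix.trans (QuotientGroup.out_eq' i).symm)
  have hset : {v : Place Qb (FN N) // v.ord (jBar N) < 0}
      = {v : Place Qb (FN N) // 0 < v.ord (jBar N)⁻¹} := by
    congr 1
    funext v
    rw [Place.ord_inv]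
    exact propext (by constructor <;> intro h <;> linarith)
  rw [hset, key]
  rfl

end Fermat.Agent.S24
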