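import Fermat.Agent.S24.Alg
import Fermat.Agent.S24.Ana.Degree
import Fermat.Agent.S24.Ana.Cusp.Ord
import Fermat.Agent.S24.Ana.Points.Tau
import Fermat.Agent.S24.Ana.Points.Ext
import Fermat.Agent.S24.Ana.Points.Orbit
import Fermat.Agent.S24.Ana.Points.Local
import Fermat.Agent.S24.Ana.Points.Roots
import Fermat.Agent.S24.Ana.Points.Fam
import Fermat.Agent.S24.Ana.Points.Same

/-!
# S24, component B: places over finite values of `j`.  INTERFACE (statements frozen).
-/

set_option autoImplicit false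

noncomputable section

namespace Fermat.Agent.S24

open AlgebraicCurve ModularCurve IntermediateField UpperHalfPlane
open scoped MatrixGroups

/-- The Taylor embedding at `z₀` attached to (the chosen representative of) `ε • i`. -/
theorem tauHom_out_smul (N : ℕ) [NeZero N] (z₀ : ℍ) (ε : SL(2, ℤ)) (i : Cosets N) :
    tauHom N z₀ (Quotient.out (ε • i)) = tauHom N z₀ (ε * Quotient.out i) := by
  obtain ⟨γ, hγ, h⟩ := out_smul N ε i
  rw [h, tauHom_mul_right N z₀ _ γ hγ]

/-- Places over `j = c` when `c = j(z₀)` is not a branch value at `z₀`-level: unramified case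
(`j - c` vanishes to order `1` at `z₀`). -/
theorem card_places_of_order_one (N : ℕ) [NeZero N] (c : Qb) (z₀ : ℍ) (hz : Jfun z₀ = φ c)
    (hord : analyticOrderAt (fun w : ℂ => Jfun (ofComplex w) - Jfun z₀) (z₀ : ℂ) = 1) :
    Nat.card {v : Place Qb (FN N) // 0 < v.ord (jBar N - algebraMap Qb (FN N) c)}
      = cosetCard N := by
  classical
  have key := card_places_eq_card_blocks (K := Qb) (F := FN N) (jBar N) (jBar_transcendental N)
    (finiteDimensional_FN N) (jBar N - algebraMap Qb (FN N) c) (Or.inl ⟨c, rfl⟩)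
    (L := LaurentSeries ℂ) (HahnSeries.order : LaurentSeries ℂ → ℤ) isOrdFn_order
    (I := Cosets N) (fun i : Cosets N => tauHom N z₀ (Quotient.out i))
    (by
      intro i i' h
      have := tauHom_distinct N z₀ _ _ h
      simpa using this)
    (finrank_FN N).symm
    (by intro i i'; rw [tauHom_jBar, tauHom_jBar])
    (by intro i i' a; rw [tauHom_algebraMap, tauHom_algebraMap])
    1 Nat.one_pos
    (fun i => by
      rw [order_tauHom_jBar_sub N z₀ _ c hz, hord]
      rfl)
    (fun i a ha => order_tauHom_algebraMap N z₀ _ a ha)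
    (⊥ : Setoid (Cosets N))
    (by
      intro i i' hr f
      have : i = i' := hr
      rw [this])
    (by
      intro i f hf
      exact ⟨_, by rw [Nat.cast_one, one_mul]⟩)
  rw [key, card_quotient_bot]
  rfl

/-- Places over `j = c` when `c = j(z₀)` and `z₀` is the fixed point of an elliptic element `ε`
with `ε ^ m₀ = -1`, `m₀` prime, `j - c` vanishing to order `m₀` at `z₀`. -/
theorem card_places_of_elliptic (N : ℕ) [NeZero N] (c : Qb) (z₀ : ℍ) (hz : Jfun z₀ = φ c)
    (ε : SL(2, ℤ)) (hfix : ε • z₀ = z₀) (m₀ : ℕ) (hm : m₀.Prime) (hε : ε ^ m₀ = -1)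
    (hord : analyticOrderAt (fun w : ℂ => Jfun (ofComplex w) - Jfun z₀) (z₀ : ℂ) = m₀)
    (hroot : ∀ n : ℕ,
      ((((ε 1 0 : ℤ) : ℂ) * (z₀ : ℂ) + ((ε 1 1 : ℤ) : ℂ)) ^ 2) ^ n = 1 → m₀ ∣ n) :
    Nat.card {v : Place Qb (FN N) // 0 < v.ord (jBar N - algebraMap Qb (FN N) c)}
      = orbCard N ε := by
  classical
  have key := card_places_eq_card_blocks (K := Qb) (F := FN N) (jBar N) (jBar_transcendental N)
    (finiteDimensional_FN N) (jBar N - algebraMap Qb (FN N) c) (Or.inl ⟨c, rfl⟩)
    (L := LaurentSeries ℂ) (HahnSeries.order : LaurentSeries ℂ → ℤ) isOrdFn_order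
    (I := Cosets N) (fun i : Cosets N => tauHom N z₀ (Quotient.out i))
    (by
      intro i i' h
      have := tauHom_distinct N z₀ _ _ h
      simpa using this)
    (finrank_FN N).symm
    (by intro i i'; rw [tauHom_jBar, tauHom_jBar])
    (by intro i i' a; rw [tauHom_algebraMap, tauHom_algebraMap])
    m₀ hm.pos
    (fun i => by
      rw [order_tauHom_jBar_sub N z₀ _ c hz, hord]
      rfl)
    (fun i a ha => order_tauHom_algebraMap N z₀ _ a ha)
    (MulAction.orbitRel (Subgroup.zpowers ε) (Cosets N))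
    (by
      intro i i' hr f
      obtain ⟨k, rfl⟩ := (orbitRel_zpowers_iff N ε i i').mp hr
      show (tauHom N z₀ (Quotient.out (ε ^ k • i')) f).order = _
      rw [tauHom_out_smul,
        order_tauHom_mul_left_of_fix N z₀ (ε ^ k) _ (zpow_smul_eq_of_smul_eq ε z₀ hfix k)])
    (by
      intro i f hf
      rcases orbit_dichotomy N ε m₀ hm hε i with hfixi | hcard
      · refine Dvd.dvd.mul_left ?_ _
        refine dvd_order_tauHom_of_fix N z₀ ε (Quotient.out i) hfix ?_ m₀ hroot f hf
        rw [mk_mul_out_eq_smul, hfixi, QuotientGroup.out_eq']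
      · rw [hcard]
        exact dvd_mul_right _ _)
  rw [key]
  rfl

/-- Over `j = c`, `c ≠ 0, 1728`, there are `[F : ℚ̄(j)]` places (no ramification). -/
theorem card_places_generic (N : ℕ) [NeZero N] (c : Qb) (h0 : c ≠ 0) (h1728 : c ≠ 1728) :
    Nat.card {v : Place Qb (FN N) // 0 < v.ord (jBar N - algebraMap Qb (FN N) c)}
      = cosetCard N := by
  obtain ⟨z₀, hz⟩ := Jfun_surjective (φ c)
  refine card_places_of_order_one N c z₀ hz ?_
  have hJ0 : Jfun z₀ ≠ 0 := by
    rw [hz]
    exact fun h => h0 (φ.injective (by rw [h, map_zero]))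
  have hJ1 : Jfun z₀ ≠ 1728 := by
    rw [hz]
    exact fun h => h1728 (φ.injective (by rw [h, map_ofNat]))
  rw [Jfun_order, if_neg hJ0, if_neg hJ1]

/-- Places over `j = 0` correspond to orbits of `⟨S*T⟩` on the cosets. -/
theorem card_places_zero (N : ℕ) [NeZero N] :
    Nat.card {v : Place Qb (FN N) // 0 < v.ord (jBar N - algebraMap Qb (FN N) 0)}
      = orbCard N (ModularGroup.S * ModularGroup.T) := by
  refine card_places_of_elliptic N 0 rho (by rw [Jfun_rho, map_zero]) _ ST_smul_rho 3
    Nat.prime_three ST_pow_three ?_ ST_root_cond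
  rw [Jfun_order, if_pos Jfun_rho]
  rfl

/-- Places over `j = 1728` correspond to orbits of `⟨S⟩` on the cosets. -/
theorem card_places_1728 (N : ℕ) [NeZero N] :
    Nat.card {v : Place Qb (FN N) // 0 < v.ord (jBar N - algebraMap Qb (FN N) 1728)}
      = orbCard N ModularGroup.S := by
  refine card_places_of_elliptic N 1728 UpperHalfPlane.I (by rw [Jfun_I, map_ofNat]) _ S_smul_I 2
    Nat.prime_two S_pow_two ?_ S_root_cond
  have h0 : Jfun UpperHalfPlane.I ≠ 0 := by rw [Jfun_I]; norm_num
  rw [Jfun_order, if_neg h0, if_pos Jfun_I]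
  rfl

end Fermat.Agent.S24
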