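import Fermat.Agent.S24.Ana.Defs
import Fermat.Agent.S24.Ana.TExp.Unique
import Fermat.Agent.S24.Ana.TExp.Mul

/-!
# S24, component B: basic calculus of `t`-expansions (`t = e^{2πiz/N}`).  INTERFACE (statements frozen).
Owner of proofs: team B2.  Used by both B1 (`Ana/Base.lean`) and B2.
-/

set_option autoImplicit false

noncomputable section

namespace Fermat.Agent.S24

open UpperHalfPlane

theorem tOf_ne_zero (N : ℕ) (z : ℍ) : tOf N z ≠ 0 := Complex.exp_ne_zero _

theorem HasTExp.const (N : ℕ) [NeZero N] (c : ℂ) :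
    HasTExp N (fun _ => c) (HahnSeries.C c) := by
  intro z
  have h := hasSum_single (f := fun n : ℤ => (HahnSeries.C c : LaurentSeries ℂ).coeff n * tOf N z ^ n)
    (0 : ℤ) (fun n hn => by
      simp [HahnSeries.C_apply, HahnSeries.coeff_single_of_ne hn])
  simpa [HahnSeries.C_apply] using h

theorem HasTExp.add {N : ℕ} [NeZero N] {f f' : ℍ → ℂ} {G G' : LaurentSeries ℂ}
    (h : HasTExp N f G) (h' : HasTExp N f' G') : HasTExp N (f + f') (G + G') := by
  intro z
  have := (h z).add (h' z)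
  simpa [add_mul] using this

theorem HasTExp.neg {N : ℕ} [NeZero N] {f : ℍ → ℂ} {G : LaurentSeries ℂ}
    (h : HasTExp N f G) : HasTExp N (-f) (-G) := by
  intro z
  have := (h z).neg
  simpa [neg_mul] using this

theorem HasTExp.mul {N : ℕ} [NeZero N] {f f' : ℍ → ℂ} {G G' : LaurentSeries ℂ}
    (h : HasTExp N f G) (h' : HasTExp N f' G') : HasTExp N (f * f') (G * G') := by
  intro z
  exact hasSum_laurent_mul (tOf_ne_zero N z) (h z) (h' z)

/-- Uniqueness of the `t`-expansion. -/
theorem HasTExp.unique {N : ℕ} [NeZero N] {f : ℍ → ℂ} {G G' : LaurentSeries ℂ}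
    (h : HasTExp N f G) (h' : HasTExp N f G') : G = G' := by
  have h0 : G - G' = 0 := by
    refine hasTExp_zero_unique (N := N) fun z => ?_
    have := (h z).sub (h' z)
    simpa [sub_mul] using this
  exact sub_eq_zero.mp h0

theorem tOf_T_zpow_smul (N : ℕ) [NeZero N] (k : ℤ) (z : ℍ) :
    tOf N (ModularGroup.T ^ k • z) =
      Complex.exp (2 * Real.pi * Complex.I * (k : ℂ) / (N : ℂ)) * tOf N z := by
  have hz : ((ModularGroup.T ^ k • z : ℍ) : ℂ) = (k : ℂ) + (z : ℂ) := by
    have := UpperHalfPlane.modular_T_zpow_smul z k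
    rw [this]
    simp [UpperHalfPlane.coe_vadd]
  unfold tOf
  rw [hz, ← Complex.exp_add]
  congr 1
  ring

/-- Translation `z ↦ z + k` multiplies the `n`-th coefficient by `e^{2πikn/N}`. -/
theorem HasTExp.vadd {N : ℕ} [NeZero N] {f : ℍ → ℂ} {G : LaurentSeries ℂ}
    (h : HasTExp N f G) (k : ℤ) :
    ∃ G' : LaurentSeries ℂ, HasTExp N (fun z => f (ModularGroup.T ^ k • z)) G' ∧
      ∀ n : ℤ, G'.coeff n =
        Complex.exp (2 * Real.pi * Complex.I * (k : ℂ) * (n : ℂ) / (N : ℂ)) * G.coeff n := by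
  classical
  let c : ℤ → ℂ := fun n =>
    Complex.exp (2 * Real.pi * Complex.I * (k : ℂ) * (n : ℂ) / (N : ℂ)) * G.coeff n
  have hsupp : (Function.support c).IsPWO := by
    refine G.isPWO_support.mono ?_
    intro n hn
    simp only [Function.mem_support, c] at hn ⊢
    exact fun h0 => hn (by rw [h0, mul_zero])
  refine ⟨⟨c, hsupp⟩, ?_, fun n => rfl⟩
  intro z
  have hz := h (ModularGroup.T ^ k • z)
  convert hz using 1
  funext n
  show c n * tOf N z ^ n = G.coeff n * tOf N (ModularGroup.T ^ k • z) ^ n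
  rw [tOf_T_zpow_smul, mul_zpow, ← Complex.exp_int_mul]
  simp only [c]
  have : Complex.exp (2 * Real.pi * Complex.I * (k : ℂ) * (n : ℂ) / (N : ℂ))
      = Complex.exp ((n : ℂ) * (2 * Real.pi * Complex.I * (k : ℂ) / (N : ℂ))) := by
    congr 1; ring
  rw [this]; ring

end Fermat.Agent.S24
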