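import Fermat.Agent.S24.Ana.Defs
import Fermat.Agent.S24.Ana.JFacts
import Fermat.Agent.S24.Ana.TExp
import Fermat.Agent.S24.Ana.Base.EvGen
import Fermat.Agent.S24.Ana.Base.EvRing
import Fermat.Agent.S24.Ana.Base.Frac
import Fermat.Agent.S24.Ana.Base.Matrix
import Fermat.Agent.S24.Ana.Base.Inv
import Fermat.Agent.S24.Ana.Base.Affine
import Fermat.Agent.S24.Ana.Base.TExpGen
import Fermat.Agent.S24.Ana.Base.Distinct

/-!
# S24, component B: the conjugate evaluation maps `conjFun N g`.  INTERFACE (statements frozen).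

For `a` in the coordinate ring `ℚ̄[j(q^d) : d ∣ N]` and `g ∈ SL₂(ℤ)`,
`conjFun N g a : ℍ → ℂ` is `z ↦ ev(a)(g⁻¹ z)`, where `ev(a)` is the holomorphic function on `ℍ`
with `q`-expansion `a`.
-/

set_option autoImplicit false

noncomputable section

namespace Fermat.Agent.S24

open AlgebraicCurve ModularCurve IntermediateField UpperHalfPlane
open scoped MatrixGroups Manifold

theorem jBar_mem_coordRing (N : ℕ) [NeZero N] : jBar N ∈ coordRing N :=
  jBar_mem_coordRing_impl N

/-- `j` as an element of the coordinate ring. -/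
def jCoord (N : ℕ) [NeZero N] : coordRing N := ⟨jBar N, jBar_mem_coordRing N⟩

/-- `F` is the fraction field of the coordinate ring. -/
theorem exists_div_coordRing (N : ℕ) [NeZero N] (f : FN N) :
    ∃ a b : coordRing N, (b : FN N) ≠ 0 ∧ f = (a : FN N) / (b : FN N) :=
  exists_div_coordRing_impl N f

theorem conjFun_one (N : ℕ) [NeZero N] (g : SL(2, ℤ)) : conjFun N g 1 = 1 := by
  funext z
  show evFun (((1 : coordRing N) : FN N) : LaurentSeries Qb) (g⁻¹ • z) = 1
  rw [evFun_coord_one]
  rfl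

theorem conjFun_mul (N : ℕ) [NeZero N] (g : SL(2, ℤ)) (a b : coordRing N) :
    conjFun N g (a * b) = conjFun N g a * conjFun N g b := by
  funext z
  show evFun (((a * b : coordRing N) : FN N) : LaurentSeries Qb) (g⁻¹ • z) = _
  rw [evFun_coord_mul]
  rfl

theorem conjFun_zero (N : ℕ) [NeZero N] (g : SL(2, ℤ)) : conjFun N g 0 = 0 := by
  funext z
  show evFun (((0 : coordRing N) : FN N) : LaurentSeries Qb) (g⁻¹ • z) = 0
  rw [evFun_coord_zero]
  rfl

theorem conjFun_add (N : ℕ) [NeZero N] (g : SL(2, ℤ)) (a b : coordRing N) :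
    conjFun N g (a + b) = conjFun N g a + conjFun N g b := by
  funext z
  show evFun (((a + b : coordRing N) : FN N) : LaurentSeries Qb) (g⁻¹ • z) = _
  rw [evFun_coord_add]
  rfl

/-- `conjFun N g` as a ring homomorphism into the ring of functions on `ℍ`. -/
def conjH (N : ℕ) [NeZero N] (g : SL(2, ℤ)) : coordRing N →+* (ℍ → ℂ) where
  toFun := conjFun N g
  map_one' := conjFun_one N g
  map_mul' := conjFun_mul N g
  map_zero' := conjFun_zero N g
  map_add' := conjFun_add N g

theorem conjFun_algebraMap (N : ℕ) [NeZero N] (g : SL(2, ℤ)) (c : Qb) (z : ℍ) :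
    conjFun N g (algebraMap Qb (coordRing N) c) z = φ c := by
  show evFun (((algebraMap Qb (coordRing N) c : coordRing N) : FN N) : LaurentSeries Qb)
    (g⁻¹ • z) = φ c
  rw [evFun_coord_algebraMap]

theorem conjFun_jCoord (N : ℕ) [NeZero N] (g : SL(2, ℤ)) (z : ℍ) :
    conjFun N g (jCoord N) z = Jfun z := by
  show evFun ((jBar N : FN N) : LaurentSeries Qb) (g⁻¹ • z) = Jfun z
  rw [evFun_jBar, Jfun_smul]

/-- Each conjugate is holomorphic on `ℍ`. -/
theorem conjFun_mdiff (N : ℕ) [NeZero N] (g : SL(2, ℤ)) (a : coordRing N) :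
    MDifferentiable 𝓘(ℂ) 𝓘(ℂ) (conjFun N g a) :=
  conjFun_mdiff_impl N g a

/-- `conjFun N g` is injective. -/
theorem conjFun_eq_zero (N : ℕ) [NeZero N] (g : SL(2, ℤ)) (a : coordRing N)
    (h : conjFun N g a = 0) : a = 0 :=
  conjFun_eq_zero_impl N g a h

/-- `conjFun N g` only depends on the coset `g Γ₀(N)`. -/
theorem conjFun_mul_right (N : ℕ) [NeZero N] (g γ : SL(2, ℤ))
    (hγ : γ ∈ CongruenceSubgroup.Gamma0 N) (a : coordRing N) :
    conjFun N (g * γ) a = conjFun N g a :=
  conjFun_mul_right_impl N g γ hγ a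

theorem conjFun_mul_left (N : ℕ) [NeZero N] (ε g : SL(2, ℤ)) (a : coordRing N) (z : ℍ) :
    conjFun N (ε * g) a z = conjFun N g a (ε⁻¹ • z) :=
  conjFun_mul_left_impl N ε g a z

/-- Distinct cosets give distinct conjugate embeddings. -/
theorem conjFun_distinct (N : ℕ) [NeZero N] (g g' : SL(2, ℤ))
    (h : ∀ a : coordRing N, conjFun N g a = conjFun N g' a) :
    (QuotientGroup.mk g : Cosets N) = QuotientGroup.mk g' :=
  conjFun_distinct_impl N g g' h

/-- Each conjugate has a convergent Laurent expansion in `t = e^{2πiz/N}` with coefficients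
in (the image of) `ℚ̄`. -/
theorem conjFun_hasTExp (N : ℕ) [NeZero N] (g : SL(2, ℤ)) (a : coordRing N) :
    ∃ G : LaurentSeries Qb, HasTExp N (conjFun N g a) (coeffMap φ G) :=
  conjFun_hasTExp_impl N g a

end Fermat.Agent.S24
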